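import Mathlib

/-!
# Two-dimensional regular local rings, elementary version

A noetherian local domain with a prime element `a` such that `R/(a)` is a principal ideal ring is a
unique factorisation domain.
-/

noncomputable section

namespace Fermat.Agent.SquareLevel.LocalAlg

open IsLocalRing

variable {R : Type*} [CommRing R] [IsNoetherianRing R] [IsLocalRing R]

/-- In a noetherian local ring an element of the maximal ideal divides no nonzero element
infinitely often. -/
theorem exists_eq_pow_mul_not_dvd {a : R} (ha : a ∈ maximalIdeal R) {x : R} (hx : x ≠ 0) :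
    ∃ (n : ℕ) (y : R), x = a ^ n * y ∧ ¬ a ∣ y := by
  by_contra hcon
  have hall : ∀ n, ∃ y, x = a ^ n * y := by
    intro n
    induction n with
    | zero => exact ⟨x, by simp⟩
    | succ n ih =>
      obtain ⟨y, hy⟩ := ih
      obtain ⟨z, hz⟩ : a ∣ y := by by_contra h; exact hcon ⟨n, y, hy, h⟩
      exact ⟨z, by rw [hy, hz, pow_succ, mul_assoc]⟩
  refine hx (IsHausdorff.haus (I := maximalIdeal R) inferInstance x fun n => ?_)
  obtain ⟨y, hy⟩ := hall n
  rw [SModEq.zero, smul_eq_mul, Ideal.mul_top, hy]
  exact Ideal.mul_mem_right _ _ (Ideal.pow_mem_pow ha n)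

variable [IsDomain R]

omit [IsDomain R] in
/-- A prime not containing `a` is principal when `R/(a)` is a principal ideal ring. -/
theorem isPrincipal_of_notMem {a : R} (ha : a ∈ maximalIdeal R)
    [IsPrincipalIdealRing (R ⧸ Ideal.span {a})] (P : Ideal R) [hP : P.IsPrime] (haP : a ∉ P) :
    P.IsPrincipal := by
  obtain ⟨y, hy⟩ := IsPrincipalIdealRing.principal (P.map (Ideal.Quotient.mk (Ideal.span {a})))
  obtain ⟨p, hpP, rfl⟩ : ∃ p ∈ P, Ideal.Quotient.mk (Ideal.span {a}) p = y :=
    (Ideal.mem_map_iff_of_surjective _ Ideal.Quotient.mk_surjective).1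
      (hy ▸ Submodule.mem_span_singleton_self y)
  have hle : P ≤ Ideal.span {p} ⊔ maximalIdeal R • P := by
    intro x hx
    have h1 : Ideal.Quotient.mk (Ideal.span {a}) x ∈
        Ideal.span {Ideal.Quotient.mk (Ideal.span {a}) p} := by
      have h0 := Ideal.mem_map_of_mem (Ideal.Quotient.mk (Ideal.span {a})) hx
      rw [hy] at h0
      exact h0
    obtain ⟨c, hc⟩ := Ideal.mem_span_singleton'.1 h1
    obtain ⟨c, rfl⟩ := Ideal.Quotient.mk_surjective c
    rw [← map_mul, Ideal.Quotient.mk_eq_mk_iff_sub_mem, Ideal.mem_span_singleton] at hc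
    obtain ⟨d, hd⟩ := hc
    have hdP : d ∈ P := (hP.mem_or_mem (show a * d ∈ P from
      hd ▸ P.sub_mem (P.mul_mem_left c hpP) hx)).resolve_left haP
    have hx' : x = c * p + -(a * d) := by linear_combination -hd
    rw [hx']
    exact Submodule.add_mem_sup (Ideal.mem_span_singleton'.2 ⟨c, rfl⟩)
      (neg_mem (Submodule.smul_mem_smul ha hdP))
  have h2 : P ≤ Ideal.span {p} :=
    Submodule.le_of_le_smul_of_le_jacobson_bot (IsNoetherian.noetherian P)
      (maximalIdeal_le_jacobson _) hle
  exact ⟨p, le_antisymm h2 ((Ideal.span_singleton_le_iff_mem P).2 hpP)⟩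

/-- Elementary form of "regular local rings of dimension two are factorial". -/
theorem uniqueFactorizationMonoid_of_prime {a : R} (ha : Prime a)
    [IsPrincipalIdealRing (R ⧸ Ideal.span {a})] : UniqueFactorizationMonoid R := by
  refine UniqueFactorizationMonoid.iff_exists_prime_mem_of_isPrime.2 fun P hP0 hP => ?_
  by_cases haP : a ∈ P
  · exact ⟨a, haP, ha⟩
  obtain ⟨p, rfl⟩ := isPrincipal_of_notMem (IsLocalRing.mem_maximalIdeal _ |>.2 ha.not_isUnit) P haP
  refine ⟨p, Ideal.mem_span_singleton_self p, (Ideal.span_singleton_prime ?_).1 hP⟩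
  intro hp
  exact hP0 (by simp [hp])

omit [IsDomain R] [IsNoetherianRing R] [IsLocalRing R] in
/-- A nonzero element with domain quotient is prime. -/
theorem prime_of_isDomain_quotient {a : R} (ha0 : a ≠ 0) [IsDomain (R ⧸ Ideal.span {a})] :
    Prime a :=
  (Ideal.span_singleton_prime ha0).1 ((Ideal.Quotient.isDomain_iff_prime _).1 inferInstance)

end Fermat.Agent.SquareLevel.LocalAlg
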