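import Mathlib

/-!
# `m`-th roots in factorial rings and in henselian local rings
-/

noncomputable section

namespace Fermat.Agent.SquareLevel.LocalAlg

open IsLocalRing UniqueFactorizationMonoid

/-- `i` is the exact multiplicity of `p` in `x`. -/
def ExactPow {R : Type*} [CommMonoid R] (p x : R) (i : ℕ) : Prop :=
  p ^ i ∣ x ∧ ¬ p ^ (i + 1) ∣ x

/-- In a factorial domain, an element all of whose multiplicities are divisible by `m` is a unit
times an `m`-th power. -/
theorem exists_eq_unit_mul_pow {R : Type*} [CommRing R] [IsDomain R] [UniqueFactorizationMonoid R]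
    {m : ℕ} (hm : 0 < m) {x : R} (hx : x ≠ 0)
    (h : ∀ (p : R) (i : ℕ), Prime p → ExactPow p x i → m ∣ i) :
    ∃ (u : Rˣ) (y : R), y ≠ 0 ∧ x = u * y ^ m := by
  classical
  let := UniqueFactorizationMonoid.strongNormalizationMonoid (α := R)
  set s := normalizedFactors x with hs
  have hdvd : ∀ p ∈ s, m ∣ s.count p := by
    intro p hp
    have hpp := prime_of_normalized_factor p hp
    refine h p _ hpp ⟨?_, ?_⟩
    · refine (dvd_iff_normalizedFactors_le_normalizedFactors (pow_ne_zero _ hpp.ne_zero) hx).2 ?_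
      rw [normalizedFactors_pow, normalizedFactors_irreducible hpp.irreducible,
        normalize_normalized_factor p hp, Multiset.nsmul_singleton]
      exact Multiset.le_count_iff_replicate_le.1 le_rfl
    · intro hd
      rw [dvd_iff_normalizedFactors_le_normalizedFactors (pow_ne_zero _ hpp.ne_zero) hx,
        normalizedFactors_pow, normalizedFactors_irreducible hpp.irreducible,
        normalize_normalized_factor p hp, Multiset.nsmul_singleton] at hd
      exact absurd (Multiset.le_count_iff_replicate_le.2 hd) (Nat.not_succ_le_self _)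
  obtain ⟨t, ht⟩ := Multiset.exists_smul_of_dvd_count s hdvd
  obtain ⟨u, hu⟩ := prod_normalizedFactors hx
  refine ⟨u, t.prod, ?_, ?_⟩
  · refine Multiset.prod_ne_zero fun h0 => ?_
    exact zero_notMem_normalizedFactors x (show (0 : R) ∈ s by
      rw [ht]; exact Multiset.mem_nsmul.2 ⟨hm.ne', h0⟩)
  · rw [← hu, mul_comm, ← hs, ht, Multiset.prod_nsmul]

/-- Multiplicities add up. -/
theorem ExactPow.mul {R : Type*} [CommRing R] [IsDomain R] {p x y : R} (hp : Prime p) {i j : ℕ}
    (hx : ExactPow p x i) (hy : ExactPow p y j) : ExactPow p (x * y) (i + j) := by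
  obtain ⟨a, rfl⟩ := hx.1
  obtain ⟨b, rfl⟩ := hy.1
  refine ⟨⟨a * b, by ring⟩, fun hd => ?_⟩
  have h1 : p ∣ a * b := by
    rw [show p ^ i * a * (p ^ j * b) = p ^ (i + j) * (a * b) by ring, pow_succ] at hd
    exact (mul_dvd_mul_iff_left (pow_ne_zero _ hp.ne_zero)).1 hd
  rcases hp.dvd_or_dvd h1 with h | h
  · exact hx.2 (by rw [pow_succ]; exact mul_dvd_mul_left _ h)
  · exact hy.2 (by rw [pow_succ]; exact mul_dvd_mul_left _ h)

theorem ExactPow.pow {R : Type*} [CommRing R] [IsDomain R] {p x : R} (hp : Prime p) {i : ℕ}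
    (hx : ExactPow p x i) : ∀ n : ℕ, ExactPow p (x ^ n) (n * i)
  | 0 => by
    simp only [pow_zero, zero_mul]
    exact ⟨by simp, fun h => hp.not_isUnit (isUnit_of_dvd_one (by simpa using h))⟩
  | n + 1 => by
    rw [pow_succ, Nat.succ_mul]
    exact (ExactPow.pow hp hx n).mul hp hx

theorem exists_exactPow {R : Type*} [CommRing R] [IsDomain R] [WfDvdMonoid R] {p x : R}
    (hp : Prime p) (hx : x ≠ 0) : ∃ i, ExactPow p x i := by
  obtain ⟨n, a, hna, rfl⟩ := WfDvdMonoid.max_power_factor hx hp.irreducible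
  exact ⟨n, dvd_mul_right _ _, fun hd => hna
    ((mul_dvd_mul_iff_left (pow_ne_zero n hp.ne_zero)).1 (by rwa [pow_succ] at hd))⟩

theorem ExactPow.unique {R : Type*} [CommRing R] {p x : R} {i j : ℕ} (hi : ExactPow p x i)
    (hj : ExactPow p x j) : i = j := by
  rcases Nat.lt_trichotomy i j with h | h | h
  · exact absurd ((pow_dvd_pow p h).trans hj.1) hi.2
  · exact h
  · exact absurd ((pow_dvd_pow p h).trans hi.1) hj.2

/-- A fraction whose divisor is divisible by `m` is a unit times an `m`-th power. -/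
theorem exists_eq_unit_mul_pow_fraction {R : Type*} [CommRing R] [IsDomain R]
    [UniqueFactorizationMonoid R] {K : Type*} [Field K] [Algebra R K] [IsFractionRing R K]
    {m : ℕ} (hm : 0 < m) {x y : R} (hx : x ≠ 0) (hy : y ≠ 0)
    (h : ∀ (p : R) (i j : ℕ), Prime p → ExactPow p x i → ExactPow p y j → (m : ℤ) ∣ (i : ℤ) - j) :
    ∃ (u : Rˣ) (g : K), g ≠ 0 ∧ algebraMap R K x / algebraMap R K y = algebraMap R K u * g ^ m := by
  obtain ⟨u, z, hz, hxz⟩ := exists_eq_unit_mul_pow (x := x * y ^ (m - 1)) hm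
    (mul_ne_zero hx (pow_ne_zero _ hy)) (fun p k hp hk => by
      obtain ⟨i, hi⟩ := exists_exactPow hp hx
      obtain ⟨j, hj⟩ := exists_exactPow hp hy
      have := ExactPow.unique hk (hi.mul hp (hj.pow hp (m - 1)))
      subst this
      obtain ⟨c, hc⟩ := h p i j hp hi hj
      rw [← Int.natCast_dvd_natCast]
      refine ⟨c + j, ?_⟩
      rw [Nat.cast_add, Nat.cast_mul, Nat.cast_sub hm]
      push_cast
      linear_combination hc)
  have hy' : algebraMap R K y ≠ 0 := by simpa using hy
  have hz' : algebraMap R K z ≠ 0 := by simpa using hz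
  refine ⟨u, algebraMap R K z / algebraMap R K y, div_ne_zero hz' hy', ?_⟩
  have h1 : algebraMap R K x * algebraMap R K y ^ (m - 1) =
      algebraMap R K u * algebraMap R K z ^ m := by
    rw [← map_pow, ← map_mul, hxz, map_mul, map_pow]
  rw [div_pow, mul_div_assoc', ← h1, div_eq_div_iff hy' (pow_ne_zero _ hy'),
    mul_assoc, ← pow_succ, Nat.sub_add_cancel hm]

theorem exactPow_of_not_dvd {R : Type*} [CommRing R] {p x : R} (h : ¬ p ∣ x) : ExactPow p x 0 :=
  ⟨by simp, by simpa using h⟩

/-- Hensel: a unit of a complete local ring whose residue is an `m`-th power is an `m`-th power,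
for `m` invertible. -/
theorem exists_pow_eq_of_residue {R : Type*} [CommRing R] [IsLocalRing R]
    [HenselianRing R (maximalIdeal R)] {m : ℕ} (hm : IsUnit (m : R)) {u : R} (hu : IsUnit u)
    {c : R} (hc : residue R (c ^ m) = residue R u) : ∃ v : R, IsUnit v ∧ v ^ m = u := by
  have hm0 : m ≠ 0 := by rintro rfl; simp at hm
  have hcu : IsUnit c := by
    have h1 : residue R (c ^ m) ≠ 0 := by
      rw [hc]; exact (residue_ne_zero_iff_isUnit u).2 hu
    exact (isUnit_pow_iff hm0).1 ((residue_ne_zero_iff_isUnit _).1 h1)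
  obtain ⟨v, hv, hvc⟩ := HenselianRing.is_henselian (I := maximalIdeal R)
    (Polynomial.X ^ m - Polynomial.C u) (Polynomial.monic_X_pow_sub_C u hm0) c
    (by rw [← residue_eq_zero_iff]; simp [Polynomial.eval_sub, hc])
    (by
      refine IsUnit.map _ ?_
      simpa [Polynomial.derivative_X_pow] using hm.mul (hcu.pow (m - 1)))
  have hv' : v ^ m = u := by
    simpa [Polynomial.IsRoot, sub_eq_zero] using hv
  exact ⟨v, (isUnit_pow_iff hm0).1 (hv' ▸ hu), hv'⟩

/-- Every unit is an `m`-th power if the residue field is algebraically closed. -/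
theorem exists_pow_eq_of_isAlgClosed {R : Type*} [CommRing R] [IsLocalRing R]
    [HenselianRing R (maximalIdeal R)] [IsAlgClosed (ResidueField R)] {m : ℕ}
    (hm : IsUnit (m : R)) {u : R} (hu : IsUnit u) : ∃ v : R, IsUnit v ∧ v ^ m = u := by
  have hm0 : 0 < m := Nat.pos_of_ne_zero (by rintro rfl; simp at hm)
  obtain ⟨z, hz⟩ := IsAlgClosed.exists_pow_nat_eq (residue R u) hm0
  obtain ⟨c, rfl⟩ := IsLocalRing.residue_surjective z
  exact exists_pow_eq_of_residue hm hu (c := c) (by rw [map_pow, hz])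

end Fermat.Agent.SquareLevel.LocalAlg
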