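import Mathlib
import Fermat.Prelude.Thm_IsLocalRing_isAdicComplete_of_module_finite
import Fermat.Agent.LevelLowering.CompleteSeries
import Fermat.Agent.SquareLevel.LocalAlg.Regular
import Fermat.Agent.SquareLevel.LocalAlg.Roots

/-!
# Finite domains over a two-dimensional complete regular local ring with two-generated maximal ideal
-/

noncomputable section

namespace Fermat.Agent.SquareLevel.LocalAlg

open IsLocalRing

/-- `W⟦X⟧` is complete for its maximal ideal. -/
theorem isAdicComplete_powerSeries_maximal (W : Type) [CommRing W] [IsLocalRing W]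
    [IsAdicComplete (maximalIdeal W) W] :
    IsAdicComplete (maximalIdeal (PowerSeries W)) (PowerSeries W) := by
  let e : MvPowerSeries (Fin 1) W ≃+* PowerSeries W :=
    (MvPowerSeries.renameEquiv W (Equiv.equivPUnit (Fin 1) : Fin 1 ≃ Unit)).toRingEquiv
  have hmap : (maximalIdeal (MvPowerSeries (Fin 1) W)).map e = maximalIdeal (PowerSeries W) :=
    IsLocalRing.eq_maximalIdeal (Ideal.map_isMaximal_of_equiv e)
  rw [← hmap]
  exact (IsAdicComplete.congr_ringEquiv _ e).mpr inferInstance

variable {O : Type*} [CommRing O] [IsLocalRing O]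

section LocalRing

variable {C : Type*} [CommRing C] [Nontrivial C] [Algebra O C] [Algebra.IsIntegral O C]
  {ι : Type*} {g : ι → C} {c : ι → O}

omit [Nontrivial C] in
theorem map_le_of_isMaximal (M : Ideal C) [M.IsMaximal] :
    (maximalIdeal O).map (algebraMap O C) ≤ M := by
  have := Ideal.isMaximal_comap_of_isIntegral_of_isMaximal (R := O) M
  exact Ideal.map_le_iff_le_comap.mpr (IsLocalRing.eq_maximalIdeal this).ge

/-- An algebra generated by elements residually equal to constants is local. -/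
theorem isLocalRing_of_gen (hgen : Algebra.adjoin O (Set.range g) = ⊤)
    (hnil : ∀ i, ∃ n : ℕ,
      (g i - algebraMap O C (c i)) ^ n ∈ (maximalIdeal O).map (algebraMap O C)) :
    ∃ _ : IsLocalRing C, maximalIdeal C = (maximalIdeal O).map (algebraMap O C) ⊔
        Ideal.span (Set.range fun i => g i - algebraMap O C (c i)) ∧
      IsLocalHom (algebraMap O C) ∧
      ∀ y : C, ∃ r : O, y - algebraMap O C r ∈ (maximalIdeal O).map (algebraMap O C) ⊔
        Ideal.span (Set.range fun i => g i - algebraMap O C (c i)) := by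
  set J := (maximalIdeal O).map (algebraMap O C) ⊔
    Ideal.span (Set.range fun i => g i - algebraMap O C (c i)) with hJ
  have hle : ∀ M : Ideal C, M.IsMaximal → J ≤ M := by
    intro M hM
    refine sup_le (map_le_of_isMaximal M) (Ideal.span_le.mpr ?_)
    rintro _ ⟨i, rfl⟩
    obtain ⟨n, hn⟩ := hnil i
    exact hM.isPrime.mem_of_pow_mem n (map_le_of_isMaximal M hn)
  have hres : ∀ y : C, ∃ r : O, y - algebraMap O C r ∈ J := by
    intro y
    have hy : y ∈ Algebra.adjoin O (Set.range g) := hgen ▸ Algebra.mem_top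
    induction hy using Algebra.adjoin_induction with
    | mem y hy =>
      obtain ⟨i, rfl⟩ := hy
      exact ⟨c i, le_sup_right (α := Ideal C) (Ideal.subset_span ⟨i, rfl⟩)⟩
    | algebraMap r => exact ⟨r, by simp⟩
    | add y z _ _ hy hz =>
      obtain ⟨r, hr⟩ := hy
      obtain ⟨t, ht⟩ := hz
      exact ⟨r + t, by rw [map_add, add_sub_add_comm]; exact J.add_mem hr ht⟩
    | mul y z _ _ hy hz =>
      obtain ⟨r, hr⟩ := hy
      obtain ⟨t, ht⟩ := hz
      refine ⟨r * t, ?_⟩
      rw [map_mul, show y * z - algebraMap O C r * algebraMap O C t =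
        (y - algebraMap O C r) * z + algebraMap O C r * (z - algebraMap O C t) by ring]
      exact J.add_mem (J.mul_mem_right _ hr) (J.mul_mem_left _ ht)
  obtain ⟨M, hM⟩ := Ideal.exists_maximal C
  have hJne : J ≠ ⊤ := fun h => hM.ne_top (top_le_iff.mp (h ▸ hle M hM))
  have hJmax : J.IsMaximal := by
    refine Ideal.isMaximal_iff.mpr ⟨fun h => hJne (J.eq_top_iff_one.mpr h),
      fun I y hI hy hyI => ?_⟩
    obtain ⟨r, hr⟩ := hres y
    have hrI : algebraMap O C r ∈ I := by simpa using I.sub_mem hyI (hI hr)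
    have hru : IsUnit r := by
      by_contra h
      exact hy (by simpa using J.add_mem hr (le_sup_left (α := Ideal C) (Ideal.mem_map_of_mem _ h)))
    exact I.eq_top_iff_one.mp (I.eq_top_of_isUnit_mem hrI (hru.map _))
  have huniq : ∀ M : Ideal C, M.IsMaximal → M = J := fun M hM =>
    (hJmax.eq_of_le hM.ne_top (hle M hM)).symm
  have hloc : IsLocalRing C := IsLocalRing.of_unique_max_ideal ⟨J, hJmax, huniq⟩
  have hmax : maximalIdeal C = J := huniq _ (maximalIdeal.isMaximal C)
  refine ⟨hloc, hmax, ⟨fun r hr => ?_⟩, hres⟩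
  by_contra h
  have : algebraMap O C r ∈ maximalIdeal C :=
    hmax ▸ le_sup_left (α := Ideal C) (Ideal.mem_map_of_mem _ h)
  exact this hr

end LocalRing

section Regular

variable {C : Type*} [CommRing C] [IsDomain C] [IsNoetherianRing C] [IsLocalRing C] [Algebra O C]
  [Algebra.IsIntegral O C] [FaithfulSMul O C]

/-- A principal ideal does not contain a power of the maximal ideal when the base has a nonzero
nonmaximal prime. -/
theorem maximalIdeal_pow_not_le_span {p : Ideal O} [p.IsPrime] (hp0 : p ≠ ⊥)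
    (hpm : p ≠ maximalIdeal O) {z : C} (hz : z ∈ maximalIdeal C) (n : ℕ) :
    ¬ maximalIdeal C ^ n ≤ Ideal.span {z} := by
  intro hle
  have hmin : maximalIdeal C ∈ (Ideal.span {z}).minimalPrimes := by
    refine ⟨⟨(maximalIdeal.isMaximal C).isPrime, (Ideal.span_singleton_le_iff_mem _).mpr hz⟩,
      fun P hP _ => ?_⟩
    exact fun y hy => hP.1.mem_of_pow_mem n (hP.2 (hle (Ideal.pow_mem_pow hy n)))
  have h1 : (maximalIdeal C).height ≤ 1 :=
    Ideal.height_le_one_of_isPrincipal_of_mem_minimalPrimes _ _ hmin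
  have hker : RingHom.ker (algebraMap O C) ≤ p := by
    rw [(RingHom.injective_iff_ker_eq_bot _).mp (FaithfulSMul.algebraMap_injective O C)]
    exact bot_le
  obtain ⟨P, hP, hPp⟩ := Ideal.exists_ideal_over_prime_of_isIntegral p (⊥ : Ideal C)
    (by rwa [← RingHom.ker_eq_comap_bot])
  have hPbot : ⊥ < P := bot_lt_iff_ne_bot.mpr fun h => hp0 (by
    rw [← hPp.2, h, ← RingHom.ker_eq_comap_bot]
    exact (RingHom.injective_iff_ker_eq_bot _).mp (FaithfulSMul.algebraMap_injective O C))
  have hPmax : P < maximalIdeal C := by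
    refine lt_of_le_of_ne (IsLocalRing.le_maximalIdeal hPp.1.ne_top) fun h => hpm ?_
    have := Ideal.isMaximal_comap_of_isIntegral_of_isMaximal (R := O) (maximalIdeal C)
    rw [← hPp.2, h]
    exact IsLocalRing.eq_maximalIdeal this
  have := hPp.1
  have hb := Ideal.height_add_one_le_of_lt_of_isPrime hPbot
  have hm := Ideal.height_add_one_le_of_lt_of_isPrime hPmax
  rw [Ideal.height_bot, zero_add] at hb
  exact absurd ((le_trans (add_le_add hb le_rfl) hm).trans h1) (by decide)

/-- A noetherian local domain with maximal ideal generated by `z ≠ 0` and `w`, finite over a base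
of dimension at least two, is factorial. -/
theorem uniqueFactorizationMonoid_of_maximalIdeal {p : Ideal O} [p.IsPrime] (hp0 : p ≠ ⊥)
    (hpm : p ≠ maximalIdeal O) {z w : C} (hz0 : z ≠ 0) (hmax : maximalIdeal C = Ideal.span {z, w}) :
    UniqueFactorizationMonoid C := by
  have hz : z ∈ maximalIdeal C := hmax ▸ Ideal.subset_span (Set.mem_insert z _)
  have hw : w ∈ maximalIdeal C := hmax ▸ Ideal.subset_span (Set.mem_insert_of_mem z rfl)
  set π := Ideal.Quotient.mk (Ideal.span {z})
  have : Nontrivial (C ⧸ Ideal.span {z}) := Ideal.Quotient.nontrivial_iff.mpr fun h =>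
    (maximalIdeal.isMaximal C).ne_top (top_le_iff.mp
        (h ▸ (Ideal.span_singleton_le_iff_mem _).mpr hz))
  have : IsLocalRing (C ⧸ Ideal.span {z}) :=
    IsLocalRing.of_surjective' π Ideal.Quotient.mk_surjective
  have : IsLocalHom π := IsLocalHom.of_surjective _ Ideal.Quotient.mk_surjective
  have hw' : π w ∈ maximalIdeal (C ⧸ Ideal.span {z}) := fun h => hw (IsUnit.of_map π _ h)
  have hnil : ∀ n : ℕ, π w ^ n ≠ 0 := by
    intro n hn
    rw [← map_pow, Ideal.Quotient.eq_zero_iff_mem] at hn
    refine maximalIdeal_pow_not_le_span hp0 hpm hz n ?_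
    have key : ∀ k : ℕ, maximalIdeal C ^ k ≤ Ideal.span {z} ⊔ Ideal.span {w ^ k} := by
      intro k
      induction k with
      | zero => simp
      | succ k ih =>
        rw [pow_succ (maximalIdeal C)]
        refine Ideal.mul_le.mpr fun x hx y hy => ?_
        obtain ⟨x₁, hx₁, x₂, hx₂, rfl⟩ := Submodule.mem_sup.mp (ih hx)
        rw [hmax, Ideal.mem_span_pair] at hy
        obtain ⟨c, d, rfl⟩ := hy
        obtain ⟨a, rfl⟩ := Ideal.mem_span_singleton'.mp hx₁
        obtain ⟨b, rfl⟩ := Ideal.mem_span_singleton'.mp hx₂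
        refine Submodule.mem_sup.mpr ⟨(a * (c * z + d * w) + b * w ^ k * c) * z,
          Ideal.mem_span_singleton'.mpr ⟨_, rfl⟩, b * d * w ^ (k + 1),
          Ideal.mem_span_singleton'.mpr ⟨_, rfl⟩, ?_⟩
        ring
    refine (key n).trans (sup_le le_rfl ((Ideal.span_singleton_le_iff_mem _).mpr hn))
  have hunit : ∀ x : C ⧸ Ideal.span {z}, ¬ π w ∣ x → IsUnit x := by
    intro x hx
    obtain ⟨x, rfl⟩ := Ideal.Quotient.mk_surjective x
    by_contra h
    have hxm : x ∈ maximalIdeal C := fun hu => h (hu.map π)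
    rw [hmax, Ideal.mem_span_pair] at hxm
    obtain ⟨a, b, rfl⟩ := hxm
    refine hx ⟨π b, ?_⟩
    rw [map_add, map_mul, map_mul, show π z = 0 from
      Ideal.Quotient.eq_zero_iff_mem.mpr (Ideal.mem_span_singleton_self z), mul_zero, zero_add,
      mul_comm]
  have key : ∀ x : C ⧸ Ideal.span {z}, x ≠ 0 → ∃ (n : ℕ) (u : C ⧸ Ideal.span {z}),
      IsUnit u ∧ x = π w ^ n * u := fun x hx => by
    obtain ⟨n, y, rfl, hy⟩ := exists_eq_pow_mul_not_dvd hw' hx
    exact ⟨n, y, hunit y hy, rfl⟩
  have : IsDomain (C ⧸ Ideal.span {z}) := by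
    have : NoZeroDivisors (C ⧸ Ideal.span {z}) := by
      refine ⟨fun {x y} hxy => ?_⟩
      by_contra h
      obtain ⟨hx, hy⟩ := not_or.1 h
      obtain ⟨i, u, hu, rfl⟩ := key x hx
      obtain ⟨j, v, hv, rfl⟩ := key y hy
      refine hnil (i + j) ((hu.mul hv).mul_left_eq_zero.1 ?_)
      rw [← hxy]; ring
    exact NoZeroDivisors.to_isDomain _
  have : IsPrincipalIdealRing (C ⧸ Ideal.span {z}) := by
    rcases eq_or_ne (π w) 0 with h0 | h0
    · exact absurd h0 (by simpa using hnil 1)
    refine (IsDiscreteValuationRing.ofHasUnitMulPowIrreducibleFactorization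
      ⟨π w, ?_, fun {x} hx => ?_⟩).toIsPrincipalIdealRing
    · refine ⟨hw', fun {a b} hab => ?_⟩
      by_contra h
      obtain ⟨ha, hb⟩ := not_or.1 h
      obtain ⟨a', rfl⟩ : π w ∣ a := by by_contra hd; exact ha (hunit a hd)
      obtain ⟨b', rfl⟩ : π w ∣ b := by by_contra hd; exact hb (hunit b hd)
      refine hw' (IsUnit.of_mul_eq_one (a' * b') (mul_left_cancel₀ h0 ?_))
      linear_combination -hab
    · obtain ⟨n, u, hu, rfl⟩ := key x hx
      exact ⟨n, hu.unit, by simp [IsUnit.unit_spec]⟩
  exact uniqueFactorizationMonoid_of_prime (prime_of_isDomain_quotient hz0)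

end Regular

section Roots

variable [IsNoetherianRing O] [IsAdicComplete (maximalIdeal O) O]

/-- Units of a finite local algebra with algebraically closed residue field have `m`-th roots. -/
theorem exists_pow_eq_of_finite {C : Type*} [CommRing C] [IsLocalRing C] [Algebra O C]
    [Module.Finite O C] [IsLocalHom (algebraMap O C)] [IsAlgClosed (ResidueField C)] {m : ℕ}
    (hm : IsUnit (m : C)) (u : Cˣ) : ∃ v : C, v ^ m = u := by
  have : IsAdicComplete (maximalIdeal C) C := IsLocalRing.isAdicComplete_of_module_finite (𝒪 := O)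
  obtain ⟨v, -, hv⟩ := exists_pow_eq_of_isAlgClosed hm u.isUnit
  exact ⟨v, hv⟩

end Roots

end Fermat.Agent.SquareLevel.LocalAlg
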