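import Mathlib

/-!
# Roots of units in rings of power series
-/

noncomputable section

namespace Fermat.Agent.SquareLevel.LocalAlg

open IsLocalRing

/-- Roots of units lift to power series rings. -/
theorem exists_pow_eq_powerSeries {B : Type*} [CommRing B] {m : ℕ} (hm : IsUnit (m : B))
    (hroot : ∀ u : B, IsUnit u → ∃ v, v ^ m = u) (u : PowerSeries B) (hu : IsUnit u) :
    ∃ v : PowerSeries B, v ^ m = u := by
  rcases subsingleton_or_nontrivial B with h | h
  · exact ⟨1, PowerSeries.ext fun n => Subsingleton.elim _ _⟩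
  have hm0 : m ≠ 0 := by rintro rfl; simp at hm
  have hu0 : IsUnit (PowerSeries.constantCoeff u) := hu.map _
  obtain ⟨c, hc⟩ := hroot _ hu0
  have hcu : IsUnit c := (isUnit_pow_iff hm0).1 (hc ▸ hu0)
  obtain ⟨v, hv, -⟩ := HenselianRing.is_henselian (I := Ideal.span {PowerSeries.X})
    (Polynomial.X ^ m - Polynomial.C u) (Polynomial.monic_X_pow_sub_C u hm0) (PowerSeries.C c)
    (by
      rw [Ideal.mem_span_singleton, PowerSeries.X_dvd_iff]
      simp [hc])
    (by
      refine IsUnit.map _ ?_
      rw [PowerSeries.isUnit_iff_constantCoeff]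
      simpa [Polynomial.derivative_X_pow] using hm.mul (hcu.pow (m - 1)))
  exact ⟨v, by simpa [Polynomial.IsRoot, sub_eq_zero] using hv⟩

end Fermat.Agent.SquareLevel.LocalAlg
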